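import Fermat.Agent.Root.SummaryHuaInequality
import Fermat.Agent.DiagonalHua.Diagonal

/-!
# Diagonal forms of odd degree
-/

set_option autoImplicit false

noncomputable section

namespace FA.SmallFormValues

open Finset

variable {k s : ℕ}

/-- Irrational ratios: Davenport and Heilbronn, the signs by `x ↦ -x`. -/
theorem small_of_irrational (hk : 2 ≤ k) (hodd : Odd k) (hs : 2 ^ k + 1 ≤ s) {l : Fin s → ℝ}
    (hl : ∀ i, l i ≠ 0) (hirr : ∃ i j, Irrational (l i / l j)) {ε : ℝ} (hε : 0 < ε) :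
    ∃ x : Fin s → ℤ, x ≠ 0 ∧ |∑ i, l i * (x i : ℝ) ^ k| < ε := by
  have h2s : 2 ≤ s := by have := Nat.one_le_two_pow (n := k); omega
  obtain ⟨a, ha⟩ : ∃ a : Fin s, (a : ℕ) = 0 := ⟨⟨0, by omega⟩, rfl⟩
  obtain ⟨b, hb⟩ : ∃ b : Fin s, (b : ℕ) = 1 := ⟨⟨1, by omega⟩, rfl⟩
  obtain ⟨σ, hσ⟩ : ∃ σ : Fin s → ℤ, σ = fun i =>
      if i = a then (if 0 < l i then 1 else -1) else (if 0 < l i then -1 else 1) := ⟨_, rfl⟩
  have hσ1 : ∀ i, σ i = 1 ∨ σ i = -1 := fun i => by
    simp only [hσ]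
    split_ifs <;> simp
  have hpow : ∀ i, (σ i : ℝ) ^ k = (σ i : ℝ) := fun i => by
    rcases hσ1 i with h | h <;> simp [h, hodd.neg_one_pow]
  have hl' : ∀ i, (σ i : ℝ) * l i ≠ 0 := fun i => by
    rcases hσ1 i with h | h <;> simp [h, hl i]
  have hirr' : ∃ i j, Irrational ((σ i : ℝ) * l i / ((σ j : ℝ) * l j)) := by
    obtain ⟨i, j, hij⟩ := hirr
    refine ⟨i, j, ?_⟩
    rcases hσ1 i with h | h <;> rcases hσ1 j with h' | h' <;>
      simp [h, h', neg_div, div_neg, hij, hij.neg]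
  have hsign : ∃ i j, 0 < (σ i : ℝ) * l i ∧ (σ j : ℝ) * l j < 0 := by
    have hba : b ≠ a := fun h => by rw [h] at hb; omega
    refine ⟨a, b, ?_, ?_⟩
    · rcases lt_or_gt_of_ne (hl a) with h | h
      · simp [hσ, h.le.not_gt, h]
      · simp [hσ, h]
    · rcases lt_or_gt_of_ne (hl b) with h | h
      · simp [hσ, hba, h.le.not_gt, h]
      · simp [hσ, hba, h]
  obtain ⟨v, hv, x, hx, rfl⟩ :=
    Metric.dense_iff.1 (HuaInequality.Summary.davenport_heilbronn_pow_dense hk hs hl' hirr' hsign)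
      0 ε hε
  rw [Metric.mem_ball, Real.dist_eq, sub_zero] at hv
  refine ⟨fun i => σ i * x i, fun h => ?_, ?_⟩
  · have := congrFun h a
    rcases hσ1 a with e | e <;> simp [e] at this <;> have := hx a <;> omega
  · convert hv using 2
    refine sum_congr rfl fun i _ => ?_
    push_cast
    rw [mul_pow, hpow]
    ring

/-- **Every real diagonal form of odd degree** takes arbitrarily small values. -/
theorem small_odd_power (hk : 3 ≤ k) (hodd : Odd k) (hs : max (2 ^ k) (k * k) < s)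
    (l : Fin s → ℝ) {ε : ℝ} (hε : 0 < ε) :
    ∃ x : Fin s → ℤ, x ≠ 0 ∧ |∑ i, l i * (x i : ℝ) ^ k| < ε := by
  by_cases h0 : ∃ i, l i = 0
  · obtain ⟨i, hi⟩ := h0
    refine ⟨Pi.single i 1, fun e => by simpa using congrFun e i, ?_⟩
    rw [sum_eq_single i (fun j _ hj => by simp [hj, zero_pow hodd.pos.ne']) (by simp), hi]
    simpa
  push Not at h0
  have hs2 := (max_lt_iff.1 hs).1
  by_cases hirr : ∃ i j, Irrational (l i / l j)
  · exact small_of_irrational (by omega) hodd (by omega) h0 hirr hε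
  push Not at hirr
  obtain ⟨a, -⟩ : ∃ a : Fin s, (a : ℕ) = 0 := ⟨⟨0, by omega⟩, rfl⟩
  choose q hq using fun i => not_not.1 (hirr i a)
  obtain ⟨y, hy, hy0⟩ := DiagonalHua.exists_diagonal_zero_rat hodd hk
    (show max (2 ^ k) (k * k) < Fintype.card (Fin s) by simpa using hs) q
  obtain ⟨⟨D, hD⟩, hint⟩ := IsLocalization.exist_integer_multiples_of_finite
    (nonZeroDivisors ℤ) (S := ℚ) y
  choose m hm using hint
  have hD0 : (D : ℚ) ≠ 0 := Int.cast_ne_zero.2 (nonZeroDivisors.ne_zero hD)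
  simp only [algebraMap_int_eq, eq_intCast, Algebra.smul_def] at hm
  refine ⟨m, fun e => hy (funext fun i => ?_), ?_⟩
  · have := hm i
    rw [e] at this
    simpa [hD0] using this.symm
  · have h1 : ∑ i, q i * (m i : ℚ) ^ k = 0 := by
      have : ∑ i, q i * (m i : ℚ) ^ k = (D : ℚ) ^ k * ∑ i, q i * y i ^ k := by
        rw [mul_sum]
        exact sum_congr rfl fun i _ => by rw [hm i]; ring
      rw [this, hy0, mul_zero]
    have h2 : ∑ i, l i * (m i : ℝ) ^ k = 0 := by
      have h3 := congrArg (fun r : ℚ => (r : ℝ) * l a) h1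
      push_cast at h3
      rw [sum_mul, zero_mul] at h3
      rw [← h3]
      refine sum_congr rfl fun i _ => ?_
      rw [hq i]
      field_simp [h0 a]
    rwa [h2, abs_zero]

end FA.SmallFormValues

end
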