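import Mathlib.LinearAlgebra.Matrix.ToLinearEquiv
import Mathlib.Analysis.Real.Sqrt
import Mathlib.Data.Fintype.Pigeonhole
import Mathlib.Algebra.Order.Floor.Ring
import Mathlib.Data.Matrix.Mul

/-!
# Integer points near a line, and small values of degenerate forms
-/

set_option autoImplicit false

noncomputable section

namespace FA.SmallFormValues

open Matrix Finset

variable {ι : Type*} [Fintype ι]

/-- **Dirichlet**: multiples of a vector come arbitrarily near to integer points. -/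
theorem exists_near_integer (v : ι → ℝ) {δ : ℝ} (hδ : 0 < δ) :
    ∃ (q : ℕ) (p : ι → ℤ), 1 ≤ q ∧ ∀ i, |(p i : ℝ) - q * v i| < δ := by
  classical
  obtain ⟨N, hN⟩ := exists_nat_gt (1 / δ)
  have hNr : (0 : ℝ) < N := lt_trans (by positivity) hN
  have hN0 : 0 < N := by exact_mod_cast hNr
  obtain ⟨f, hf⟩ : ∃ f : Fin (N ^ Fintype.card ι + 1) → ι → Fin N,
      ∀ a i, ((f a i : ℕ) : ℤ) = ⌊Int.fract ((a : ℕ) * v i) * N⌋ := by
    refine ⟨fun a i => ⟨⌊Int.fract ((a : ℕ) * v i) * N⌋.toNat, ?_⟩, fun a i => ?_⟩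
    · rw [Int.toNat_lt (Int.floor_nonneg.2 (by positivity)), Int.floor_lt]
      push_cast
      exact mul_lt_of_lt_one_left hNr (Int.fract_lt_one _)
    · exact Int.toNat_of_nonneg (Int.floor_nonneg.2 (by positivity))
  obtain ⟨a, b, hne, hab⟩ :=
    Fintype.exists_ne_map_eq_of_card_lt f (by simp)
  wlog hlt : (a : ℕ) < b generalizing a b
  · exact this b a hne.symm hab.symm (by
      rcases Nat.lt_or_ge (b : ℕ) a with h | h
      · exact h
      · exact absurd (Fin.ext (le_antisymm h (not_lt.1 hlt))) hne)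
  refine ⟨(b : ℕ) - a, fun i => ⌊((b : ℕ) : ℝ) * v i⌋ - ⌊((a : ℕ) : ℝ) * v i⌋, by omega,
    fun i => ?_⟩
  have h1 : ⌊Int.fract ((a : ℕ) * v i) * N⌋ = ⌊Int.fract ((b : ℕ) * v i) * N⌋ := by
    rw [← hf, ← hf, hab]
  have h2 := Int.abs_sub_lt_one_of_floor_eq_floor h1
  rw [← sub_mul, abs_mul, abs_of_pos hNr] at h2
  have h3 : |Int.fract ((a : ℕ) * v i) - Int.fract ((b : ℕ) * v i)| < δ := by
    refine lt_trans ((lt_div_iff₀ hNr).2 h2) ?_
    rw [div_lt_iff₀ hNr]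
    rw [div_lt_iff₀ hδ] at hN
    linarith
  convert h3 using 2
  rw [Int.fract, Int.fract]
  push_cast [Nat.cast_sub hlt.le]
  ring

/-- The form of a symmetric matrix does not see the kernel. -/
theorem dot_add_kernel {A : Matrix ι ι ℝ} (hs : A.IsSymm) {v : ι → ℝ} (hv : A *ᵥ v = 0)
    (d : ι → ℝ) (t : ℝ) : (d + t • v) ⬝ᵥ A *ᵥ (d + t • v) = d ⬝ᵥ A *ᵥ d := by
  have h : v ⬝ᵥ A *ᵥ d = 0 := by
    rw [dotProduct_mulVec, ← mulVec_transpose, hs.eq, hv, zero_dotProduct]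
  rw [mulVec_add, mulVec_smul, hv, smul_zero, add_zero, add_dotProduct, smul_dotProduct, h,
    smul_zero, add_zero]

theorem abs_dot_le {A : Matrix ι ι ℝ} {d : ι → ℝ} {δ : ℝ} (hd : ∀ i, |d i| ≤ δ) :
    |d ⬝ᵥ A *ᵥ d| ≤ δ ^ 2 * ∑ i, ∑ j, |A i j| := by
  simp only [dotProduct, mulVec]
  refine (abs_sum_le_sum_abs _ _).trans ?_
  rw [mul_sum]
  refine sum_le_sum fun i _ => ?_
  rw [abs_mul]
  refine (mul_le_mul_of_nonneg_left (abs_sum_le_sum_abs _ _) (abs_nonneg _)).trans ?_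
  rw [mul_sum, mul_sum]
  refine sum_le_sum fun j _ => ?_
  have hi := (abs_nonneg (d i)).trans (hd i)
  calc |d i| * |A i j * d j| = |d i| * |d j| * |A i j| := by rw [abs_mul]; ring
    _ ≤ δ * δ * |A i j| := by gcongr <;> exact hd _
    _ = δ ^ 2 * |A i j| := by ring

/-- **Degenerate forms** take arbitrarily small values. -/
theorem small_of_det_eq_zero [DecidableEq ι] {A : Matrix ι ι ℝ} (hs : A.IsSymm)
    (hd : A.det = 0) {ε : ℝ} (hε : 0 < ε) :
    ∃ x : ι → ℤ, x ≠ 0 ∧ |(fun i => (x i : ℝ)) ⬝ᵥ A *ᵥ fun i => (x i : ℝ)| < ε := by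
  obtain ⟨v, hv0, hv⟩ := exists_mulVec_eq_zero_iff.2 hd
  obtain ⟨j, hj⟩ : ∃ j, v j ≠ 0 := Function.ne_iff.1 hv0
  obtain ⟨S, hS⟩ : ∃ S, S = ∑ i, ∑ j, |A i j| := ⟨_, rfl⟩
  have hS0 : 0 ≤ S := hS ▸ sum_nonneg fun i _ => sum_nonneg fun j _ => abs_nonneg _
  obtain ⟨δ, hδ, hδj, hδS⟩ : ∃ δ : ℝ, 0 < δ ∧ δ ≤ |v j| ∧ δ ^ 2 * S < ε := by
    have hpos : 0 < min (|v j|) (min 1 (ε / (S + 1))) :=
      lt_min (abs_pos.2 hj) (lt_min one_pos (div_pos hε (by linarith)))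
    refine ⟨_, hpos, min_le_left _ _, ?_⟩
    have h1 : min (|v j|) (min 1 (ε / (S + 1))) ≤ 1 := (min_le_right _ _).trans (min_le_left _ _)
    have h2 : min (|v j|) (min 1 (ε / (S + 1))) ≤ ε / (S + 1) :=
      (min_le_right _ _).trans (min_le_right _ _)
    rw [le_div_iff₀ (by linarith)] at h2
    nlinarith
  obtain ⟨q, p, hq, hp⟩ := exists_near_integer v hδ
  refine ⟨p, fun h => ?_, ?_⟩
  · have := hp j
    rw [h] at this
    simp only [Pi.zero_apply, Int.cast_zero, zero_sub, abs_neg, abs_mul, Nat.abs_cast] at this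
    have hq1 : (1 : ℝ) ≤ q := by exact_mod_cast hq
    nlinarith [abs_nonneg (v j)]
  · have e : (fun i => (p i : ℝ)) = (fun i => (p i : ℝ) - q * v i) + (q : ℝ) • v := by
      funext i; simp
    rw [e, dot_add_kernel hs hv]
    exact (abs_dot_le fun i => (hp i).le).trans_lt (hS ▸ hδS)

end FA.SmallFormValues

end
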