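import Fermat.Agent.SmallFormValues.Approx
import Fermat.Agent.Oppenheim.Values
import Fermat.Agent.MeyerNF.Main
import Mathlib.Analysis.Normed.Field.Lemmas
import Mathlib.Topology.MetricSpace.ProperSpace

/-!
# Quadratic forms in five or more variables
-/

set_option autoImplicit false

noncomputable section

namespace FA.SmallFormValues

open Matrix Finset
open FA.Oppenheim (matVal matVal_smul)

variable {n : ℕ}

/-- A zero of a non-degenerate symmetric form gives values of both signs. -/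
theorem exists_pos_of_zero {A : Matrix (Fin n) (Fin n) ℝ} (hs : A.IsSymm) (hd : A.det ≠ 0)
    {y : Fin n → ℝ} (hy : y ≠ 0) (h : matVal A y = 0) : ∃ w, 0 < matVal A w := by
  by_contra hcon
  push Not at hcon
  obtain ⟨b, hb⟩ : ∃ b : (Fin n → ℝ) → ℝ, b = fun w => w ⬝ᵥ A *ᵥ y := ⟨_, rfl⟩
  have key : ∀ w, b w = 0 := by
    intro w
    have hexp : ∀ t : ℝ, matVal A (y + t • w) = 2 * t * b w + t ^ 2 * matVal A w := by
      intro t
      have hsy : y ⬝ᵥ A *ᵥ w = w ⬝ᵥ A *ᵥ y := by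
        rw [dotProduct_mulVec, ← mulVec_transpose, hs.eq, dotProduct_comm]
      simp only [matVal] at h ⊢
      simp only [hb, mulVec_add, mulVec_smul, dotProduct_add, add_dotProduct, smul_dotProduct,
        dotProduct_smul, smul_eq_mul, hsy, h]
      ring
    obtain ⟨K, hK⟩ : ∃ K, K = |matVal A w| + 1 := ⟨_, rfl⟩
    have hK0 : 0 < K := by rw [hK]; positivity
    have h1 := hcon (y + (b w / K) • w)
    rw [hexp] at h1
    have h2 : -K ≤ matVal A w := by linarith [neg_abs_le (matVal A w)]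
    have h3 : (b w / K) ^ 2 * (-K) ≤ (b w / K) ^ 2 * matVal A w :=
      mul_le_mul_of_nonneg_left h2 (sq_nonneg _)
    have h4 : 2 * (b w / K) * b w + (b w / K) ^ 2 * (-K) = b w ^ 2 / K := by
      field_simp
      ring
    have h5 : b w ^ 2 / K ≤ 0 := by linarith
    have h6 : b w ^ 2 ≤ 0 := by
      rwa [div_le_iff₀ hK0, zero_mul] at h5
    exact pow_eq_zero_iff two_ne_zero |>.1 (le_antisymm h6 (sq_nonneg _))
  refine hy (eq_zero_of_mulVec_eq_zero hd ?_)
  have := key (A *ᵥ y)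
  rw [hb] at this
  exact dotProduct_self_eq_zero.1 this

theorem exists_neg_of_zero {A : Matrix (Fin n) (Fin n) ℝ} (hs : A.IsSymm) (hd : A.det ≠ 0)
    {y : Fin n → ℝ} (hy : y ≠ 0) (h : matVal A y = 0) : ∃ w, matVal A w < 0 := by
  obtain ⟨w, hw⟩ := exists_pos_of_zero (A := -A) hs.neg
    (by simp [det_neg, hd]) hy (by rw [FA.Oppenheim.matVal_neg, h, neg_zero])
  exact ⟨w, by rw [FA.Oppenheim.matVal_neg] at hw; linarith⟩

/-- **Meyer**: multiples of integral forms with a real zero have integer zeros. -/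
theorem exists_zero_of_integral (hn : 5 ≤ n) {c : ℝ} {B : Matrix (Fin n) (Fin n) ℤ} (hc : c ≠ 0)
    {y : Fin n → ℝ} (hy : y ≠ 0)
    (h : matVal (c • B.map (fun z : ℤ => (z : ℝ))) y = 0) :
    ∃ x : Fin n → ℤ, x ≠ 0 ∧
      matVal (c • B.map (fun z : ℤ => (z : ℝ))) (fun i => (x i : ℝ)) = 0 := by
  simp only [matVal, smul_mulVec, dotProduct_smul, smul_eq_mul, mul_eq_zero, hc, false_or] at h ⊢
  obtain ⟨x, hx, h'⟩ := (Fermat.Agent.MeyerNF.matrix_isotropic_five_iff (K := ℚ)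
    (by simpa using hn) (B.map (fun z : ℤ => (z : ℚ)))).2 fun φ => ⟨y, hy, by
      convert h using 3
      ext i j
      simp⟩
  obtain ⟨⟨D, hD⟩, hint⟩ := IsLocalization.exist_integer_multiples_of_finite
    (nonZeroDivisors ℤ) (S := ℚ) x
  choose m hm using hint
  have hD0 : (D : ℚ) ≠ 0 := Int.cast_ne_zero.2 (nonZeroDivisors.ne_zero hD)
  simp only [algebraMap_int_eq, eq_intCast, Algebra.smul_def] at hm
  refine ⟨m, fun e => hx (funext fun i => ?_), ?_⟩
  · have := hm i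
    rw [e] at this
    simpa [hD0] using this.symm
  · have h1 : (fun i => (m i : ℚ)) ⬝ᵥ B.map (fun z : ℤ => (z : ℚ)) *ᵥ (fun i => (m i : ℚ)) = 0 := by
      have e : (fun i => (m i : ℚ)) = (D : ℚ) • x := funext fun i => by simp [hm i]
      rw [e, mulVec_smul, dotProduct_smul, smul_dotProduct, h', smul_zero, smul_zero]
    have h2 := congrArg (fun r : ℚ => (r : ℝ)) h1
    simpa [dotProduct, mulVec] using h2

/-- **Small values**: from five variables on a real zero is enough. -/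
theorem small_of_zero (hn : 5 ≤ n) {A : Matrix (Fin n) (Fin n) ℝ} (hs : A.IsSymm)
    {y : Fin n → ℝ} (hy : y ≠ 0) (h : matVal A y = 0) {ε : ℝ} (hε : 0 < ε) :
    ∃ x : Fin n → ℤ, x ≠ 0 ∧ |matVal A fun i => (x i : ℝ)| < ε := by
  by_cases hd : A.det = 0
  · exact small_of_det_eq_zero hs hd hε
  by_contra hcon
  push Not at hcon
  obtain ⟨c, B, rfl⟩ := FA.Oppenheim.integral_of_avoiding (by omega) hs hd
    (exists_pos_of_zero hs hd hy h) (exists_neg_of_zero hs hd hy h) hε hcon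
  have hc : c ≠ 0 := fun hc => hd (by
    have : Nonempty (Fin n) := ⟨⟨0, by omega⟩⟩
    simp [hc, det_zero])
  obtain ⟨x, hx, hx0⟩ := exists_zero_of_integral hn hc hy h
  have := hcon x hx
  rw [hx0, abs_zero] at this
  linarith

/-- **Definite forms** are bounded below at nonzero integer points. -/
theorem exists_zero_of_small (hn : 1 ≤ n) {A : Matrix (Fin n) (Fin n) ℝ}
    (h : ∀ ε : ℝ, 0 < ε → ∃ x : Fin n → ℤ, x ≠ 0 ∧ |matVal A fun i => (x i : ℝ)| < ε) :
    ∃ y : Fin n → ℝ, y ≠ 0 ∧ matVal A y = 0 := by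
  by_contra hcon
  push Not at hcon
  have : Nonempty (Fin n) := ⟨⟨0, hn⟩⟩
  have hne : (Metric.sphere (0 : Fin n → ℝ) 1).Nonempty :=
    NormedSpace.sphere_nonempty.2 zero_le_one
  have hcont : Continuous fun x : Fin n → ℝ => |matVal A x| := by
    unfold FA.Oppenheim.matVal dotProduct mulVec dotProduct
    fun_prop
  obtain ⟨u, hu, hmin⟩ := (isCompact_sphere (0 : Fin n → ℝ) 1).exists_isMinOn hne hcont.continuousOn
  have hu1 : ‖u‖ = 1 := by simpa using hu
  have hpos : 0 < |matVal A u| :=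
    abs_pos.2 (hcon u fun h0 => by simp [h0] at hu1)
  obtain ⟨x, hx, hlt⟩ := h _ hpos
  obtain ⟨i, hi⟩ : ∃ i, x i ≠ 0 := Function.ne_iff.1 hx
  obtain ⟨z, hz⟩ : ∃ z : Fin n → ℝ, z = fun i => (x i : ℝ) := ⟨_, rfl⟩
  have hz1 : 1 ≤ ‖z‖ := by
    refine le_trans ?_ (norm_le_pi_norm z i)
    rw [hz, Real.norm_eq_abs, ← Int.cast_abs]
    exact_mod_cast Int.one_le_abs hi
  have hm : ‖z‖⁻¹ • z ∈ Metric.sphere (0 : Fin n → ℝ) 1 := by
    simp only [mem_sphere_zero_iff_norm, norm_smul, norm_inv, norm_norm]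
    exact inv_mul_cancel₀ (by linarith)
  have h1 : |matVal A u| ≤ |matVal A (‖z‖⁻¹ • z)| := hmin hm
  rw [matVal_smul, abs_mul, abs_of_nonneg (sq_nonneg ‖z‖⁻¹)] at h1
  have h2 : (‖z‖⁻¹) ^ 2 ≤ 1 := pow_le_one₀ (by positivity) (inv_le_one_of_one_le₀ hz1)
  rw [← hz] at hlt
  nlinarith [abs_nonneg (matVal A z)]

end FA.SmallFormValues

end
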